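/-
MLT / [L1] case (C), ORDINARY case (helper9): fork of `Lib/Ihara/Img/Rep.lean` with the condition at `p`
`IsOrdinaryAt p` (`p ∤ N`, S32) replaced by `IsOrdinaryAt p` (`p ∥ N` and `ρbar` ordinary at `p`, S33).  Generated by a
rename script from the frozen file: only the declarations depending on the condition at `p` are repeated,
with the prefix `ih`/`Ih` replaced by `kh`/`Kh`.
-/
import Mathlib
import Fermat.Agent.Lib.Ihara.Dat.ImgRep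
import Fermat.Agent.Lib.Ihara.Img.DetCyc
import Fermat.Agent.Lib.Ihara.G1.Datum
import Fermat.Agent.Lib.TW.BaseChange
import Fermat.Agent.Lib.TW.Wiring
import Fermat.Agent.Lib.Helper6.FrobeniusExists
import Fermat.Agent.S32
import Fermat.Agent.S34
import Fermat.Agent.Lib.Ihara.Img.Rep
import Fermat.Agent.Lib.MLT.CO.OrdBasic
import Fermat.Agent.S33

set_option autoImplicit false
set_option linter.unusedSectionVars false
set_option linter.unusedVariables false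
set_option linter.style.haveILetI false

open IsLocalRing Polynomial Fermat.Agent.S53Lib Fermat.Agent.TW
open scoped TensorProduct

namespace Fermat.Agent.Ihara

local notation "Qbar" => AlgebraicClosure ℚ
local notation "GQ" => (AlgebraicClosure ℚ ≃ₐ[ℚ] AlgebraicClosure ℚ)

section Gen

variable {N : ℕ} [NeZero N] {S : Set ℕ}

end Gen

section Main

attribute [local instance] dualNumberAlgebra
attribute [local instance] isLocalHom_algebraMap_dualNumber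

variable {p : ℕ} {𝒪 : Type} [CommRing 𝒪] [IsDomain 𝒪] [IsDiscreteValuationRing 𝒪]
  [IsAdicComplete (maximalIdeal 𝒪) 𝒪] [Finite (ResidueField 𝒪)] [CharZero 𝒪]
  {N : ℕ} [NeZero N] {S : Finset ℕ}
  {θ : CuspForm.heckeAlgebra N 2 (↑S : Set ℕ) →+* ResidueField 𝒪}
  {M : Type*} [AddCommGroup M] [Module 𝒪 M] [Module.IsTorsionFree 𝒪 M]
  (a : CuspForm.heckeAlgebra N 2 (↑S : Set ℕ) →+* Module.End 𝒪 M)
  [Nontrivial (ihdPart 𝒪 a θ)]

/-- **the matrix representation over the Hecke ring of `M`** -/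
theorem khi_exists_rep (hp : p.Prime) (hp2 : p ≠ 2) (hp𝒪 : (p : 𝒪) ∈ maximalIdeal 𝒪)
    (hpS : p ∈ S) (hNS : ∀ q : ℕ, q.Prime → q ∣ N → q ∈ S)
    (ρbar : ResidualGaloisRep (ResidueField 𝒪)) (habs : ρbar.IsAbsolutelyIrreducible)
    (hfrob : ∀ (ℓ : ℕ) (hℓ : ℓ.Prime) (hℓN : ¬ ℓ ∣ N) (hℓS : ℓ ∉ (↑S : Set ℕ)),
      ∀ P : ValuationSubring Qbar, P.LiesOverPrime ℓ → ∀ σ : GQ, P.IsFrobeniusAt σ ℓ →
        LinearMap.charpoly (ρbar.ρ σ) =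
          X ^ 2 - C (θ (CuspForm.heckeAlgebra.T hℓ hℓN hℓS)) * X + C ((ℓ : ResidueField 𝒪)))
    (b : Module.Basis (Fin 2) (ResidueField 𝒪) ρbar.V) :
    ∃ (rA : GQ →* Matrix (Fin 2) (Fin 2) (IhdImg 𝒪 a θ)) (hcts : MatCts (IhdImg 𝒪 a θ) rA),
      Function.Surjective (residue (IhdImg 𝒪 a θ) ∘ algebraMap 𝒪 (IhdImg 𝒪 a θ)) ∧
      IsStrictLift (𝒪 := 𝒪) (resMat ρbar b) rA ∧
      (∀ (ℓ : ℕ) (hℓ : ℓ.Prime) (hℓN : ¬ ℓ ∣ N) (hℓS : ℓ ∉ (↑S : Set ℕ)),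
        ∀ P : ValuationSubring Qbar, P.LiesOverPrime ℓ → ∀ σ : GQ, P.IsFrobeniusAt σ ℓ →
          (rA σ).trace = ihdImgPi 𝒪 a θ (CuspForm.heckeAlgebra.T hℓ hℓN hℓS) ∧
            (rA σ).det = (ℓ : IhdImg 𝒪 a θ)) ∧
      (ofMat rA hcts).DetIsCyclotomic p ∧
      (p ∣ N ∧ ¬ p ^ 2 ∣ N → (GaloisRepAdic.ofResidualGaloisRep ρbar).IsOrdinaryAt p →
        (ofMat rA hcts).IsOrdinaryAt p) ∧
      (∀ q : ℕ, q.Prime → q ∉ S → (ofMat rA hcts).IsUnramifiedAt q) ∧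
      (∀ q : ℕ, q.Prime → q ≠ p → q ∣ N → ¬ q ^ 2 ∣ N →
        (ofMat rA hcts).IsUnipotentOnInertiaAt q) ∧
      IhgTraceDet (𝒪 := 𝒪) rA := by
  classical
  obtain ⟨H, hπ, hHres⟩ := ihd_exists_datum hp hp2 hp𝒪 hpS hNS θ ρbar habs hfrob
  obtain ⟨-, hresA⟩ := ihdImgRep_residual a hNS ρbar habs hfrob H hπ
  obtain ⟨rA, hcts, hstrict, ⟨e⟩⟩ :=
    exists_strictLift_of_residual_isEquiv ρbar b (ihdImgRep a H) hresA
  have heq : (ihdImgRep a H).IsEquiv (ofMat rA hcts) := ⟨e⟩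
  -- the characteristic polynomials of the Frobenius elements
  have hchar : ∀ (ℓ : ℕ) (hℓ : ℓ.Prime) (hℓN : ¬ ℓ ∣ N) (hℓS : ℓ ∉ (↑S : Set ℕ)),
      ∀ P : ValuationSubring Qbar, P.LiesOverPrime ℓ → ∀ σ : GQ, P.IsFrobeniusAt σ ℓ →
        LinearMap.charpoly ((ofMat rA hcts).ρ σ) =
          X ^ 2 - C (ihdImgPi 𝒪 a θ (CuspForm.heckeAlgebra.T hℓ hℓN hℓS)) * X
            + C ((ℓ : IhdImg 𝒪 a θ)) := by
    intro ℓ hℓ hℓN hℓS P hP σ hσ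
    rw [Fermat.Agent.Lib.Helper6.charpoly_eq_of_galoisRepAdic_equiv e σ]
    exact ihdImgRep_charpoly a H hπ ℓ hℓ hℓN hℓS P hP σ hσ
  have hmat : ∀ σ : GQ, LinearMap.toMatrix (ofMatBasis rA hcts) (ofMatBasis rA hcts)
      ((ofMat rA hcts).ρ σ) = rA σ := fun σ =>
    DFunLike.congr_fun (toMatrixRep_ofMat rA hcts) σ
  have hfr : ∀ (ℓ : ℕ) (hℓ : ℓ.Prime) (hℓN : ¬ ℓ ∣ N) (hℓS : ℓ ∉ (↑S : Set ℕ)),
      ∀ P : ValuationSubring Qbar, P.LiesOverPrime ℓ → ∀ σ : GQ, P.IsFrobeniusAt σ ℓ →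
        (rA σ).trace = ihdImgPi 𝒪 a θ (CuspForm.heckeAlgebra.T hℓ hℓN hℓS) ∧
          (rA σ).det = (ℓ : IhdImg 𝒪 a θ) := by
    intro ℓ hℓ hℓN hℓS P hP σ hσ
    have h := Fermat.Agent.S31T.s31t_trace_det_of_charpoly (ofMatBasis rA hcts)
      ((ofMat rA hcts).ρ σ) _ _ (hchar ℓ hℓ hℓN hℓS P hP σ hσ)
    rw [hmat] at h
    exact h
  have hdetlin : ∀ σ : GQ, LinearMap.det ((ofMat rA hcts).ρ σ) = (rA σ).det := fun σ => by
    rw [← LinearMap.det_toMatrix (ofMatBasis rA hcts), hmat]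
  have hlN : ∀ l : ℕ, l.Prime → l ∉ S → ¬ l ∣ N := fun l hl hlS h => hlS (hNS l hl h)
  refine ⟨rA, hcts, ihi_residue_surjective a H, hstrict, hfr, ?_, ?_, ?_, ?_, ?_⟩
  · -- cyclotomic determinant
    refine ihi_detIsCyclotomic hp (ofMat rA hcts) ?_ (ihi_exists_pow_le a hp𝒪 hp.ne_zero) S hpS ?_
    · have h := map_nonunit (algebraMap 𝒪 (IhdImg 𝒪 a θ)) _ hp𝒪
      rwa [map_natCast] at h
    · intro l hl hlS P hP φ hφ
      rw [hdetlin]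
      exact (hfr l hl (hlN l hl hlS) (by exact_mod_cast hlS) P hP φ hφ).2
  · -- ordinary at `p`
    intro hpN hord
    have hres : (GaloisRepAdic.ofResidualGaloisRep H.ρ.residual).IsOrdinaryAt p :=
      kho_residual_ordinary _ ρbar _ hHres hord
    exact kho_isOrdinaryAt_of_isEquiv heq (kho_isOrdinaryAt_baseChangeAlong _ _ H.ρ
      (Fermat.Agent.S33.result hp hp2 hp𝒪 hpN hNS H hres))
  · -- unramified outside `S`
    intro q hq hqS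
    exact isUnramifiedAt_of_isEquiv heq (ihdImgRep_isUnramifiedAt a hp hp𝒪 hpS hNS H q hq hqS)
  · -- unipotent at `q ∥ N`
    intro q hq hqp hqN hq2
    exact isUnipotentOnInertiaAt_of_isEquiv heq (isUnipotentOnInertiaAt_baseChangeAlong _ _ H.ρ
      (Fermat.Agent.S34.result hp hp𝒪 hpS hNS H q hq hqp hqN hq2))
  · -- the traces determine the points
    intro f f' hff'
    have hring : (f : IhdImg 𝒪 a θ →+* DualNumber (ResidueField 𝒪)).comp (ihdImgPi 𝒪 a θ)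
        = (f' : IhdImg 𝒪 a θ →+* DualNumber (ResidueField 𝒪)).comp (ihdImgPi 𝒪 a θ) :=
      ihi_ringHom_ext (fun q hq hqN => by exact_mod_cast hNS q hq hqN) _ _
        (fun ℓ hℓ hℓN hℓS => by
          obtain ⟨P, σ, hP, hσ⟩ := Fermat.Agent.Lib.Helper6.exists_frobenius ℓ hℓ
          have h := hff' σ
          rw [(hfr ℓ hℓ hℓN hℓS P hP σ hσ).1] at h
          exact h)
    refine AlgHom.ext_of_adjoin_eq_top (ihd_adjoin_range_imgPi 𝒪 a θ) ?_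
    rintro _ ⟨t, rfl⟩
    exact RingHom.congr_fun hring t

/-- the `twCond` of `Lib/TW/Wiring.lean` with the flat condition at `p`, in the shape of `IhaHecke` -/
theorem khi_exists_rep_twCond (hp : p.Prime) (hp2 : p ≠ 2) (hp𝒪 : (p : 𝒪) ∈ maximalIdeal 𝒪)
    (hpS : p ∈ S) (hNS : ∀ q : ℕ, q.Prime → q ∣ N → q ∈ S) (hpN : p ∣ N ∧ ¬ p ^ 2 ∣ N)
    (ρbar : ResidualGaloisRep (ResidueField 𝒪)) (habs : ρbar.IsAbsolutelyIrreducible)
    (hord : (GaloisRepAdic.ofResidualGaloisRep ρbar).IsOrdinaryAt p)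
    (hfrob : ∀ (ℓ : ℕ) (hℓ : ℓ.Prime) (hℓN : ¬ ℓ ∣ N) (hℓS : ℓ ∉ (↑S : Set ℕ)),
      ∀ P : ValuationSubring Qbar, P.LiesOverPrime ℓ → ∀ σ : GQ, P.IsFrobeniusAt σ ℓ →
        LinearMap.charpoly (ρbar.ρ σ) =
          X ^ 2 - C (θ (CuspForm.heckeAlgebra.T hℓ hℓN hℓS)) * X + C ((ℓ : ResidueField 𝒪)))
    (b : Module.Basis (Fin 2) (ResidueField 𝒪) ρbar.V)
    (Smin : Finset ℕ) (hSmin : ∀ q ∈ Smin, q.Prime → q ≠ p → q ∣ N ∧ ¬ q ^ 2 ∣ N) :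
    ∃ (rA : GQ →* Matrix (Fin 2) (Fin 2) (IhdImg 𝒪 a θ)) (hcts : MatCts (IhdImg 𝒪 a θ) rA),
      Function.Surjective (residue (IhdImg 𝒪 a θ) ∘ algebraMap 𝒪 (IhdImg 𝒪 a θ)) ∧
      IsStrictLift (𝒪 := 𝒪) (resMat ρbar b) rA ∧
      twCond 𝒪 (fun A _ _ ρ => ρ.IsOrdinaryAt p) p Smin S (ofMat rA hcts) ∧
      IhgTraceDet (𝒪 := 𝒪) rA ∧
      (∀ (ℓ : ℕ) (hℓ : ℓ.Prime) (hℓN : ¬ ℓ ∣ N) (hℓS : ℓ ∉ (↑S : Set ℕ)),
        ∀ P : ValuationSubring Qbar, P.LiesOverPrime ℓ → ∀ σ : GQ, P.IsFrobeniusAt σ ℓ →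
          (rA σ).trace = ihdImgPi 𝒪 a θ (CuspForm.heckeAlgebra.T hℓ hℓN hℓS)) ∧
      (∀ (ℓ : ℕ), ℓ.Prime → ℓ ≠ p → ∀ P : ValuationSubring Qbar, P.LiesOverPrime ℓ →
        (∀ σ : GQ, P.IsFrobeniusAt σ ℓ → (rA σ).det = (ℓ : IhdImg 𝒪 a θ)) ∧
        (∀ σ ∈ P.inertiaSubgroupIn ℚ, (rA σ).det = 1)) := by
  obtain ⟨rA, hcts, hres, hstrict, hfr, hdet, hflat, hunr, hunip, htr⟩ :=
    khi_exists_rep a hp hp2 hp𝒪 hpS hNS ρbar habs hfrob b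
  have hmat : ∀ σ : GQ, LinearMap.toMatrix (ofMatBasis rA hcts) (ofMatBasis rA hcts)
      ((ofMat rA hcts).ρ σ) = rA σ := fun σ =>
    DFunLike.congr_fun (toMatrixRep_ofMat rA hcts) σ
  have hdetlin : ∀ σ : GQ, LinearMap.det ((ofMat rA hcts).ρ σ) = (rA σ).det := fun σ => by
    rw [← LinearMap.det_toMatrix (ofMatBasis rA hcts), hmat]
  refine ⟨rA, hcts, hres, hstrict, ⟨⟨hdet, hflat hpN hord, fun q hq hqS => hunr q hq hqS⟩,
    fun q hqSmin hq hqp => hunip q hq hqp (hSmin q hqSmin hq hqp).1 (hSmin q hqSmin hq hqp).2⟩,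
    htr, fun ℓ hℓ hℓN hℓS P hP σ hσ => (hfr ℓ hℓ hℓN hℓS P hP σ hσ).1, ?_⟩
  intro ℓ hℓ hℓp P hP
  constructor
  · intro σ hσ
    rw [← hdetlin]
    exact ihi_det_frob hp (ofMat rA hcts) hdet hℓ hℓp hP hσ
  · intro σ hσ
    rw [← hdetlin]
    exact ihi_det_inertia hp (ofMat rA hcts) hdet hℓ hℓp hP hσ

end Main

end Fermat.Agent.Ihara
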